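import Fermat.Agent.S48.Igusa1.GRed
import Fermat.Agent.S48.Full.Main
import Fermat.Agent.S28.D1bk
import Fermat.Agent.GAL.INJ.ResAlgClosed

/-!
# S48 / IGUSA1 (b), file `GFull`: the abstract Gauss theory applied to `FFullC`.

* `exists_lift_rootOfUnity`: `M`-th roots of unity of the residue field lift to `A` (`K` alg. closed);
* `lift_gen`, `lift_monomial_full`: generators / monomials in the generators of `FFullC k M` lift;
* `gHyp_full`: `GHyp A (jM A M) (FFullC K M) (FFullC k M) n` from the two degrees.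
-/

set_option autoImplicit false

noncomputable section

namespace Fermat.Agent.S48.Igusa1

open ModularCurve Polynomial Fermat.Agent.GAL.Gauss Fermat.Agent.S48.Full

variable {K : Type} [Field K] (A : ValuationSubring K) (M : ℕ) [NeZero M]

theorem GFull_iA_jM : iA A (jM ↥A M) = jM K M := coeffMap_jM _ M

theorem GFull_pA_jM : pA A (jM ↥A M) = jM (IsLocalRing.ResidueField ↥A) M := coeffMap_jM _ M

/-- roots of unity lie in every valuation subring. -/
theorem mem_of_pow_eq_one {x : K} (hx : x ^ M = 1) : x ∈ A := by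
  rcases A.mem_or_inv_mem x with h | h
  · exact h
  · have h1 : x = x⁻¹ ^ (M - 1) := by
      have hx0 : x ≠ 0 := by
        rintro rfl
        rw [zero_pow (NeZero.ne M)] at hx
        exact zero_ne_one hx
      have hM : M = (M - 1) + 1 := (Nat.succ_pred_eq_of_pos (Nat.pos_of_ne_zero (NeZero.ne M))).symm
      rw [hM, pow_succ] at hx
      rw [inv_pow]
      field_simp
      rw [mul_comm, hx]
    rw [h1]
    exact pow_mem h _

/-- **`M`-th roots of unity of the residue field lift.** -/
theorem exists_lift_rootOfUnity [IsAlgClosed K]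
    (hM : ((M : ℕ) : IsLocalRing.ResidueField ↥A) ≠ 0)
    (w : (IsLocalRing.ResidueField ↥A)ˣ) (hw : w ^ M = 1) :
    ∃ W : (↥A)ˣ, W ^ M = 1 ∧
      Units.map (IsLocalRing.residue ↥A : ↥A →* IsLocalRing.ResidueField ↥A) W = w := by
  classical
  have hMK : NeZero ((M : ℕ) : K) := ⟨natCast_ne_zero_of_residue A M hM⟩
  obtain ⟨ζ, hζ⟩ := HasEnoughRootsOfUnity.exists_primitiveRoot K M
  have hζA : ζ ∈ A := mem_of_pow_eq_one A M hζ.pow_eq_one
  have hζ' : IsPrimitiveRoot (⟨ζ, hζA⟩ : ↥A) M :=
    IsPrimitiveRoot.of_map_of_injective (f := A.subtype) hζ Subtype.val_injective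
  obtain ⟨W0, hW0⟩ := IsLocalRing.residue_surjective (w : IsLocalRing.ResidueField ↥A)
  have h1 := congrArg (fun P : (↥A)[X] => IsLocalRing.residue ↥A (P.eval W0))
    (X_pow_sub_one_eq_prod (Nat.pos_of_ne_zero (NeZero.ne M)) hζ')
  simp only [eval_sub, eval_pow, eval_X, eval_one, eval_prod, eval_C, map_sub, map_pow, map_one,
    map_prod, hW0] at h1
  have hw' : (w : IsLocalRing.ResidueField ↥A) ^ M = 1 := by
    rw [← Units.val_pow_eq_pow_val, hw, Units.val_one]
  rw [hw', sub_self, eq_comm, Finset.prod_eq_zero_iff] at h1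
  obtain ⟨ξ, hξ, h2⟩ := h1
  rw [mem_nthRootsFinset (Nat.pos_of_ne_zero (NeZero.ne M))] at hξ
  refine ⟨Units.ofPowEqOne ξ M hξ (NeZero.ne M), ?_, ?_⟩
  · exact Units.ext (by rw [Units.val_pow_eq_pow_val, Units.val_ofPowEqOne, hξ, Units.val_one])
  · refine Units.ext ?_
    rw [Units.coe_map, Units.val_ofPowEqOne]
    exact (sub_eq_zero.1 h2).symm

/-- generators of `FFullC k M` lift to `A`-integral elements of `FFullC K M`. -/
theorem lift_gen [IsAlgClosed K] (hM : ((M : ℕ) : IsLocalRing.ResidueField ↥A) ≠ 0)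
    (x : LaurentSeries (IsLocalRing.ResidueField ↥A))
    (hx : x ∈ gensC (IsLocalRing.ResidueField ↥A) M) :
    ∃ z : LaurentSeries ↥A, pA A z = x ∧ iA A z ∈ gensC K M := by
  rcases hx with rfl | ⟨a, w, hw, haw, rfl⟩
  · exact ⟨jM ↥A M, GFull_pA_jM A M, Or.inl (GFull_iA_jM A M)⟩
  · obtain ⟨W, hW, rfl⟩ := exists_lift_rootOfUnity A M hM w hw
    have hu : a ≠ 0 ∨ IsUnit (1 - (W : ↥A)) := by
      rcases haw with h | h
      · exact Or.inl h
      · refine Or.inr ?_
        rw [← IsLocalRing.residue_ne_zero_iff_isUnit, map_sub, map_one, sub_ne_zero]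
        intro h1
        apply h
        refine Units.ext ?_
        rw [Units.coe_map, Units.val_one]
        exact h1.symm
    refine ⟨hSer ↥A M a W, coeffMap_hSer _ M a W hu, Or.inr ⟨a, Units.map (A.subtype : ↥A →* K) W, ?_, ?_,
      coeffMap_hSer _ M a W hu⟩⟩
    · rw [← map_pow, hW, map_one]
    · rcases haw with h | h
      · exact Or.inl h
      · refine Or.inr ?_
        intro h1
        apply h
        have h2 : W = 1 := by
          refine Units.ext (Subtype.ext ?_)
          have := congrArg Units.val h1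
          simpa using this
        rw [h2, map_one]

theorem lift_monomial_full [IsAlgClosed K] (hM : ((M : ℕ) : IsLocalRing.ResidueField ↥A) ≠ 0)
    (x : LaurentSeries (IsLocalRing.ResidueField ↥A))
    (hx : x ∈ Submonoid.closure (gensC (IsLocalRing.ResidueField ↥A) M)) :
    ∃ z : LaurentSeries ↥A, pA A z = x ∧ iA A z ∈ FFullC K M ∧
      x ∈ FFullC (IsLocalRing.ResidueField ↥A) M := by
  induction hx using Submonoid.closure_induction with
  | mem x hx =>
    obtain ⟨z, hz, hz'⟩ := lift_gen A M hM x hx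
    exact ⟨z, hz, IntermediateField.subset_adjoin K _ hz', IntermediateField.subset_adjoin _ _ hx⟩
  | one => exact ⟨1, map_one _, by rw [map_one]; exact one_mem _, one_mem _⟩
  | mul x y _ _ hx hy =>
    obtain ⟨z, rfl, hz, hz2⟩ := hx
    obtain ⟨z', rfl, hz', hz2'⟩ := hy
    exact ⟨z * z', map_mul _ _ _, by rw [map_mul]; exact mul_mem hz hz', mul_mem hz2 hz2'⟩

/-- **The hypotheses of the Gauss theory for the full level field**, from
`[FFullC K M : K(j)] ≤ n` and `[FFullC k M : k(j)] = n`. -/
theorem gHyp_full [IsAlgClosed K] (hM : ((M : ℕ) : IsLocalRing.ResidueField ↥A) ≠ 0)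
    (n : ℕ) (hn0 : 0 < n) (hK : Dep (jM K M) (FFullC K M) n)
    (hk : Module.finrank
      ↥(IntermediateField.adjoin (IsLocalRing.ResidueField ↥A) {jM (IsLocalRing.ResidueField ↥A) M})
      ↥(IntermediateField.adjoin
        ↥(IntermediateField.adjoin (IsLocalRing.ResidueField ↥A) {jM (IsLocalRing.ResidueField ↥A) M})
        (gensC (IsLocalRing.ResidueField ↥A) M)) = n) :
    GHyp A (jM ↥A M) (FFullC K M) (FFullC (IsLocalRing.ResidueField ↥A) M) n := by
  classical
  refine ⟨hn0, ?_, ?_, ?_, ?_, ?_, ?_⟩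
  · rw [GFull_pA_jM]; exact transcendental_jM M
  · rw [GFull_iA_jM]; exact jM_mem_FFullC K M
  · rw [GFull_pA_jM]; exact jM_mem_FFullC _ M
  · rw [GFull_iA_jM]; exact hK
  · rw [GFull_pA_jM]; exact dep_of_finrank _ _ _ n hn0 hk
  · obtain ⟨v, hv, hli⟩ := Fermat.Agent.S28.D1bk_abstract
      (gensC (IsLocalRing.ResidueField ↥A) M) n hn0 hk
    choose z hz1 hz2 hz3 using fun i : Fin n => lift_monomial_full A M hM _ (hv i)
    refine ⟨z, hz2, fun i => by rw [hz1]; exact hz3 i, ?_⟩
    intro c hc hsum
    rw [GFull_pA_jM] at hc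
    rw [Fintype.linearIndependent_iff] at hli
    have := hli (fun i => ⟨c i, hc i⟩) (by
      simp only [Algebra.smul_def]
      rw [← hsum]
      refine Finset.sum_congr rfl fun i _ => ?_
      rw [hz1]
      rfl)
    funext i
    exact congrArg Subtype.val (this i)

/-- conversion between the two forms of the degree. -/
theorem finrank_first_of_second (K₀ : Type*) [Field K₀] (S : Set (LaurentSeries K₀))
    (x : ↥(IntermediateField.adjoin K₀ S)) :
    Module.finrank ↥(IntermediateField.adjoin K₀ {(x : LaurentSeries K₀)})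
      ↥(IntermediateField.adjoin ↥(IntermediateField.adjoin K₀ {(x : LaurentSeries K₀)}) S) =
    Module.finrank ↥(IntermediateField.adjoin K₀ {x}) ↥(IntermediateField.adjoin K₀ S) := by
  have hle : IntermediateField.adjoin K₀ {(x : LaurentSeries K₀)} ≤ IntermediateField.adjoin K₀ S := by
    rw [IntermediateField.adjoin_simple_le_iff]
    exact x.2
  rw [GAL.Tors.Dict.degree_finrank_eq_relfinrank, IntermediateField.relfinrank_eq_finrank_of_le hle]
  have heq : IntermediateField.adjoin ↥(IntermediateField.adjoin K₀ {(x : LaurentSeries K₀)}) S =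
      IntermediateField.extendScalars hle := by
    apply le_antisymm
    · rw [IntermediateField.adjoin_le_iff]
      intro y hy
      exact IntermediateField.subset_adjoin K₀ S hy
    · intro y hy
      have h1 : IntermediateField.adjoin K₀ S ≤
          (IntermediateField.adjoin ↥(IntermediateField.adjoin K₀ {(x : LaurentSeries K₀)})
            S).restrictScalars K₀ := by
        rw [IntermediateField.adjoin_le_iff]
        intro z hz
        exact IntermediateField.subset_adjoin _ S hz
      exact h1 hy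
  rw [heq]

open scoped MatrixGroups

/-- the degree of `X(M) → X(1)`. -/
def nFull (M : ℕ) : ℕ := Nat.card (SL(2, ℤ) ⧸ GammaPM M)

theorem nFull_pos : 0 < nFull M := by
  have : Finite (SL(2, ℤ) ⧸ GammaPM M) := Subgroup.finite_quotient_of_finiteIndex
  exact Nat.card_pos

/-- `j(t^M)` as an element of the function field. -/
def jFull (L : Type*) [Field L] : ↥(IntermediateField.adjoin L (gensC L M)) :=
  ⟨jM L M, IntermediateField.subset_adjoin L _ (Or.inl rfl)⟩

theorem dep_full_charZero [IsAlgClosed K] (ι : K →+* ℂ) : Dep (jM K M) (FFullC K M) (nFull M) :=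
  dep_of_finrank' K (IntermediateField.adjoin K (gensC K M)) (genSet_full ι M).jF (nFull M)
    (nFull_pos M) (genSet_full ι M).finrank_jF

/-- **`GHyp` for the full level field**, from the degree in characteristic `p` (second form:
export (E1) of sub-block (a)). -/
theorem gHyp_full' [IsAlgClosed K] (ι : K →+* ℂ)
    (hM : ((M : ℕ) : IsLocalRing.ResidueField ↥A) ≠ 0)
    (hk : Module.finrank
      ↥(IntermediateField.adjoin (IsLocalRing.ResidueField ↥A)
        {jFull M (IsLocalRing.ResidueField ↥A)})
      ↥(IntermediateField.adjoin (IsLocalRing.ResidueField ↥A)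
        (gensC (IsLocalRing.ResidueField ↥A) M)) = nFull M) :
    GHyp A (jM ↥A M) (FFullC K M) (FFullC (IsLocalRing.ResidueField ↥A) M) (nFull M) :=
  gHyp_full A M hM (nFull M) (nFull_pos M) (dep_full_charZero M ι)
    ((finrank_first_of_second _ _ (jFull M (IsLocalRing.ResidueField ↥A))).trans hk)

/-- **INJ for the full level field** from the degree (a) and the genus (c) in characteristic `p`. -/
theorem injAt_full [IsAlgClosed K] (ι : K →+* ℂ)
    (hM : ((M : ℕ) : IsLocalRing.ResidueField ↥A) ≠ 0)
    (hk : Module.finrank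
      ↥(IntermediateField.adjoin (IsLocalRing.ResidueField ↥A)
        {jFull M (IsLocalRing.ResidueField ↥A)})
      ↥(IntermediateField.adjoin (IsLocalRing.ResidueField ↥A)
        (gensC (IsLocalRing.ResidueField ↥A) M)) = nFull M)
    [Lib.RR.IsFF (IsLocalRing.ResidueField ↥A) ↥(FFullC (IsLocalRing.ResidueField ↥A) M)]
    (hg : AlgebraicCurve.genusFF K ↥(FFullC K M) =
      AlgebraicCurve.genusFF (IsLocalRing.ResidueField ↥A) ↥(FFullC (IsLocalRing.ResidueField ↥A) M)) :
    InjAt A (FFullC K M) := by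
  have : CharZero K := (RingHom.charZero_iff ι.injective).2 inferInstance
  have : IsAlgClosed (IsLocalRing.ResidueField ↥A) := GAL.INJ.isAlgClosed_residueField A
  have : Lib.RR.IsFF K ↥(FFullC K M) := isFF_FFullC ι M
  exact (gHyp_full' A M ι hM hk).injAt hg

end Fermat.Agent.S48.Igusa1
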