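import Fermat.Agent.S48.Igusa1.Deg.Main
import Fermat.Agent.S48.Igusa1.GFull
import Fermat.Agent.S48.Igusa1.Genus.Main
import Fermat.Agent.S48.ES1.Inj

/-!
# S48 / IGUSA1 : final assembly

`stmtInjFull : StmtInjFull M` and `stmtFracFull : ES1.StmtFracFull M`.
-/

set_option autoImplicit false
set_option linter.unusedSectionVars false
set_option synthInstance.maxHeartbeats 400000

open scoped MatrixGroups

noncomputable section

namespace Fermat.Agent.S48.Igusa1

open Module IntermediateField AlgebraicCurve ModularCurve Fermat.Agent.GAL.Gauss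
  Fermat.Agent.S48.Full

variable {K : Type} [Field K] [IsAlgClosed K] (ι : K →+* ℂ) (A : ValuationSubring K)
  (M : ℕ) [NeZero M]

include ι in
/-- The output of sub-blocks (a), (b). -/
theorem degHyp_full (hM : ((M : ℕ) : IsLocalRing.ResidueField ↥A) ≠ 0) :
    DegHyp A M (nFull M) where
  gh := gHyp_full' A M ι hM (Deg.finrank_k ι A M hM)
  finK := (genSet_full ι M).finrank_jF
  fink := Deg.finrank_k ι A M hM
  sepk := by
    have h := Deg.isGalois_k ι A M hM Subgroup.FiniteIndex.index_ne_zero
    exact h.to_isSeparable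

end Fermat.Agent.S48.Igusa1

namespace Fermat.Agent.S48.Igusa1

open Fermat.Agent.S48.Full

variable (M : ℕ) [NeZero M]

/-- **Contract IGUSA1.** -/
theorem stmtInjFull (hneat : 4 ∣ M ∨ 9 ∣ M) : StmtInjFull M := fun A hM =>
  (degHyp_full S24.iota A M hM).injAt hM hneat

/-- The second contract used by ES1. -/
theorem stmtFracFull : ES1.StmtFracFull M := by
  intro A hM x hx hx0
  obtain ⟨c, P, Q, hc, hP, hQ, hP0, hQ0, -, -, h⟩ :=
    normalise_frac (degHyp_full S24.iota A M hM).gh x hx hx0
  exact ⟨c, P, Q, hc, hP, hQ, hP0, hQ0, h⟩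

/-- What ES1 / GEO use. -/
theorem stmtInj1 (hneat : 4 ∣ M ∨ 9 ∣ M) : StmtInj1 M := injDown M (stmtInjFull M hneat)

end Fermat.Agent.S48.Igusa1
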