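import Fermat.Agent.S48.Igusa1.GRat

/-!
# S48 / IGUSA1 (b), file `GLevel`: Gauss bases of a subfield `FK ⊆ K((t))` over `K(J)`.
(Abstract version of `GAL/Gauss/Level.lean`.)

`A` a valuation subring of `K` with residue field `k`, `J ∈ A((t))`, `FK ⊆ K((t))`, `Fk ⊆ k((t))` subfields.
`GHyp A J FK Fk n`: `[FK : K(J)] ≤ n`, `[Fk : k(J̄)] ≤ n` and there are `n` integral series in `FK` whose
reductions lie in `Fk` and are linearly independent over `k(J̄)`.
-/

set_option autoImplicit false

noncomputable section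

namespace Fermat.Agent.S48.Igusa1

open ModularCurve Polynomial Fermat.Agent.GAL.Gauss

/-- any `n + 1` elements of `F` are linearly dependent over `k₀(x)`. -/
def Dep {k₀ : Type*} [Field k₀] (x : LaurentSeries k₀)
    (F : IntermediateField k₀ (LaurentSeries k₀)) (n : ℕ) : Prop :=
  ∀ w : Fin (n + 1) → LaurentSeries k₀, (∀ i, w i ∈ F) →
    ∃ c : Fin (n + 1) → LaurentSeries k₀,
      (∀ i, c i ∈ IntermediateField.adjoin k₀ {x}) ∧ c ≠ 0 ∧ ∑ i, c i * w i = 0

/-- `Dep` from the degree, first form (as in `GAL/Gauss/Level.dep`). -/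
theorem dep_of_finrank (K₀ : Type*) [Field K₀] (x : LaurentSeries K₀) (S : Set (LaurentSeries K₀))
    (n : ℕ) (hn0 : 0 < n)
    (hn : Module.finrank ↥(IntermediateField.adjoin K₀ {x})
      ↥(IntermediateField.adjoin ↥(IntermediateField.adjoin K₀ {x}) S) = n) :
    Dep x (IntermediateField.adjoin K₀ S) n := by
  classical
  intro w hw
  set E0 := IntermediateField.adjoin K₀ {x} with hE0
  set Fb := IntermediateField.adjoin ↥E0 S with hFb
  have hle : IntermediateField.adjoin K₀ S ≤ Fb.restrictScalars K₀ := by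
    rw [IntermediateField.adjoin_le_iff]
    intro y hy
    exact IntermediateField.subset_adjoin (↥E0) S hy
  have hw' : ∀ i, w i ∈ Fb := fun i => hle (hw i)
  have : Module.Free ↥E0 ↥Fb := Module.Free.of_divisionRing _ _
  have : Module.Finite ↥E0 ↥Fb := Module.finite_of_finrank_pos (by rw [hn]; exact hn0)
  have hdep : ¬ LinearIndependent ↥E0 (fun i => (⟨w i, hw' i⟩ : ↥Fb)) := by
    intro hli
    have := hli.fintype_card_le_finrank
    rw [hn, Fintype.card_fin] at this
    omega
  rw [Fintype.not_linearIndependent_iff] at hdep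
  obtain ⟨g, hg, i0, hi0⟩ := hdep
  refine ⟨fun i => (g i : LaurentSeries K₀), fun i => (g i).2, ?_, ?_⟩
  · intro h
    apply hi0
    have := congrFun h i0
    exact Subtype.ext this
  · have := congrArg (fun x : ↥Fb => (x : LaurentSeries K₀)) hg
    simpa [Algebra.smul_def, IntermediateField.coe_sum] using this

/-- `Dep` from the degree, second form (as in `S48/Full/GenDeg.finrank_jF`). -/
theorem dep_of_finrank' (K₀ : Type*) [Field K₀] (F : IntermediateField K₀ (LaurentSeries K₀))
    (x : F) (n : ℕ) (hn0 : 0 < n)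
    (hn : Module.finrank ↥(IntermediateField.adjoin K₀ {x}) ↥F = n) :
    Dep (x : LaurentSeries K₀) F n := by
  classical
  intro w hw
  set E0 := IntermediateField.adjoin K₀ {x} with hE0
  have : Module.Free ↥E0 ↥F := Module.Free.of_divisionRing _ _
  have : Module.Finite ↥E0 ↥F := Module.finite_of_finrank_pos (by rw [hn]; exact hn0)
  have hdep : ¬ LinearIndependent ↥E0 (fun i => (⟨w i, hw i⟩ : ↥F)) := by
    intro hli
    have := hli.fintype_card_le_finrank
    rw [hn, Fintype.card_fin] at this
    omega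
  rw [Fintype.not_linearIndependent_iff] at hdep
  obtain ⟨g, hg, i0, hi0⟩ := hdep
  have hmap : ∀ y : ↥E0, (((y : ↥F)) : LaurentSeries K₀) ∈
      IntermediateField.adjoin K₀ {(x : LaurentSeries K₀)} := by
    intro y
    have h1 : (E0.map F.val) = IntermediateField.adjoin K₀ {(x : LaurentSeries K₀)} := by
      rw [hE0, IntermediateField.adjoin_map, Set.image_singleton]
      rfl
    rw [← h1]
    exact ⟨(y : ↥F), y.2, rfl⟩
  refine ⟨fun i => (((g i : ↥E0) : ↥F) : LaurentSeries K₀), fun i => hmap (g i), ?_, ?_⟩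
  · intro h
    apply hi0
    have := congrFun h i0
    exact Subtype.ext (Subtype.ext this)
  · have := congrArg (fun x : ↥F => (x : LaurentSeries K₀)) hg
    simpa [Algebra.smul_def, IntermediateField.coe_sum] using this

variable {K : Type} [Field K] (A : ValuationSubring K) (J : LaurentSeries ↥A)
  (FK : IntermediateField K (LaurentSeries K))
  (Fk : IntermediateField (IsLocalRing.ResidueField ↥A)
    (LaurentSeries (IsLocalRing.ResidueField ↥A)))

/-- A family of honest `A`-integral series in `FK` which is a basis over `K(J)`, whose reductions are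
a basis of `Fk` over `k(J̄)`, and which is a basis of the Gauss valuation ring over the Gauss
valuation ring of `K(J)`. -/
structure GBasis (n : ℕ) (z : Fin n → LaurentSeries ↥A) : Prop where
  mem : ∀ i, iA A (z i) ∈ FK
  mem_res : ∀ i, pA A (z i) ∈ Fk
  indep_res : ∀ c : Fin n → LaurentSeries (IsLocalRing.ResidueField ↥A),
    (∀ i, c i ∈ IntermediateField.adjoin (IsLocalRing.ResidueField ↥A) {pA A J}) →
      ∑ i, c i * pA A (z i) = 0 → c = 0
  indep : ∀ c : Fin n → LaurentSeries K,
    (∀ i, c i ∈ IntermediateField.adjoin K {iA A J}) → ∑ i, c i * iA A (z i) = 0 → c = 0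
  span : ∀ x ∈ FK, ∃ d : Fin n → LaurentSeries K,
    (∀ i, d i ∈ IntermediateField.adjoin K {iA A J}) ∧ x = ∑ i, d i * iA A (z i)
  span_int : ∀ y : ↥(gRing A), (y : LaurentSeries K) ∈ FK →
    ∃ c : Fin n → ↥(gRing A), (∀ i, (c i : LaurentSeries K) ∈ IntermediateField.adjoin K {iA A J}) ∧
      (y : LaurentSeries K) = ∑ i, (c i : LaurentSeries K) * iA A (z i)
  span_res : ∀ x ∈ Fk,
    ∃ d : Fin n → LaurentSeries (IsLocalRing.ResidueField ↥A),
      (∀ i, d i ∈ IntermediateField.adjoin (IsLocalRing.ResidueField ↥A) {pA A J}) ∧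
        x = ∑ i, d i * pA A (z i)

/-- The hypotheses of the abstract Gauss theory. -/
structure GHyp (n : ℕ) : Prop where
  pos : 0 < n
  trans : Transcendental (IsLocalRing.ResidueField ↥A) (pA A J)
  memK : iA A J ∈ FK
  memk : pA A J ∈ Fk
  depK : Dep (iA A J) FK n
  depk : Dep (pA A J) Fk n
  ex : ∃ z : Fin n → LaurentSeries ↥A, (∀ i, iA A (z i) ∈ FK) ∧ (∀ i, pA A (z i) ∈ Fk) ∧
    ∀ c : Fin n → LaurentSeries (IsLocalRing.ResidueField ↥A),
      (∀ i, c i ∈ IntermediateField.adjoin (IsLocalRing.ResidueField ↥A) {pA A J}) →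
        ∑ i, c i * pA A (z i) = 0 → c = 0

variable {A J FK Fk}

theorem GHyp.exists_gBasis {n : ℕ} (H : GHyp A J FK Fk n) :
    ∃ z : Fin n → LaurentSeries ↥A, GBasis A J FK Fk n z := by
  classical
  obtain ⟨z, hz2, hz3, hind⟩ := H.ex
  have hJ := H.trans
  let zO : Fin n → ↥(gRing A) := fun i => ⟨iA A (z i), iA_mem_gRing A _⟩
  have hres : ∀ i, gRes A (zO i) = pA A (z i) := fun i => gRes_iA A (z i)
  have hind' : ∀ c : Fin n → LaurentSeries (IsLocalRing.ResidueField ↥A),
      (∀ i, c i ∈ (IntermediateField.adjoin (IsLocalRing.ResidueField ↥A)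
        {pA A J}).toSubfield) →
        ∑ i, c i * gRes A (zO i) = 0 → c = 0 := by
    intro c hc hrel
    apply hind c hc
    rw [← hrel]
    exact Finset.sum_congr rfl fun i _ => by rw [hres]
  refine ⟨z, ⟨hz2, hz3, hind, ?_, ?_, ?_, ?_⟩⟩
  · exact fun c hc hrel => indep_of_res (gRing A) (gRes A)
      (IntermediateField.adjoin K {iA A J}).toSubfield (fun c hc => rat_val A J hJ c hc)
      (IntermediateField.adjoin (IsLocalRing.ResidueField ↥A)
        {pA A J}).toSubfield (fun c hc => rat_res A J hJ c hc)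
      n zO hind' c hc hrel
  · exact fun x hx => span_of_dep (gRing A) (gRes A)
      (IntermediateField.adjoin K {iA A J}).toSubfield (fun c hc => rat_val A J hJ c hc)
      (IntermediateField.adjoin (IsLocalRing.ResidueField ↥A)
        {pA A J}).toSubfield (fun c hc => rat_res A J hJ c hc)
      (FK : Set (LaurentSeries K)) n zO
      (fun w hw => H.depK w hw) hz2 hind' x hx
  · exact fun y hy => Fermat.Agent.S28.D1a (gRing A) (gRes A)
      (fun x hx => inv_mem_gRing_of_gRes_ne_zero A x hx)
      (IntermediateField.adjoin K {iA A J}).toSubfield (fun c hc => rat_val A J hJ c hc)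
      (IntermediateField.adjoin (IsLocalRing.ResidueField ↥A)
        {pA A J}).toSubfield (fun c hc => rat_res A J hJ c hc)
      (FK : Set (LaurentSeries K)) n zO
      (fun w hw => H.depK w hw) hz2 hind' y hy
  · intro x hx
    obtain ⟨c, hcE, hc0, hrel⟩ := H.depk
      (Fin.cons x fun i => pA A (z i)) (by
        intro i
        refine Fin.cases ?_ (fun j => ?_) i
        · simpa using hx
        · simpa using hz3 j)
    rw [Fin.sum_univ_succ] at hrel
    simp only [Fin.cons_zero, Fin.cons_succ] at hrel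
    have hc00 : c 0 ≠ 0 := by
      intro h0
      rw [h0, zero_mul, zero_add] at hrel
      have := hind (fun i => c i.succ) (fun i => hcE _) hrel
      apply hc0
      funext i
      refine Fin.cases ?_ (fun j => ?_) i
      · exact h0
      · exact congrFun this j
    refine ⟨fun i => -(c i.succ) / c 0, fun i => div_mem (neg_mem (hcE _)) (hcE _), ?_⟩
    have : ∑ i, -(c i.succ) / c 0 * pA A (z i) = -(∑ i, c i.succ * pA A (z i)) / c 0 := by
      rw [← Finset.sum_neg_distrib, Finset.sum_div]
      refine Finset.sum_congr rfl fun i _ => by ring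
    rw [this]
    field_simp
    linear_combination hrel

end Fermat.Agent.S48.Igusa1
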