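import Fermat.Agent.S48.Igusa1.GLevel

/-!
# S48 / IGUSA1 (b), file `GMain`: the Gauss valuation ring of `FK`, its residue map onto `Fk`.
(Abstract version of `GAL/Gauss/Main.lean`.)
-/

set_option autoImplicit false

noncomputable section

namespace Fermat.Agent.S48.Igusa1

open ModularCurve Polynomial Fermat.Agent.GAL.Gauss

variable {K : Type} [Field K] (A : ValuationSubring K) (J : LaurentSeries ↥A)

/-- a Gauss integral element of `K(j)` is a quotient of polynomials over `A`. -/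
theorem rat_frac (hJ : Transcendental (IsLocalRing.ResidueField ↥A) (pA A J)) (c : ↥(gRing A))
    (hc : (c : LaurentSeries K) ∈ IntermediateField.adjoin K {iA A J}) :
    ∃ R S : (↥A)[X], S.map (IsLocalRing.residue ↥A) ≠ 0 ∧
      iA A (evJ A J S) * (c : LaurentSeries K) = iA A (evJ A J R) := by
  by_cases h0 : (c : LaurentSeries K) = 0
  · exact ⟨0, 1, by simp, by rw [h0, mul_zero, map_zero, map_zero]⟩
  obtain ⟨r, s, hrs⟩ := (IntermediateField.mem_adjoin_simple_iff K _).mp hc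
  have hr : r ≠ 0 := by
    rintro rfl
    rw [map_zero, zero_div] at hrs
    exact h0 hrs
  have hs : s ≠ 0 := by
    rintro rfl
    rw [map_zero, div_zero] at hrs
    exact h0 hrs
  obtain ⟨a, R, ha, hR, hrR⟩ := exists_normalise A r hr
  obtain ⟨b, S, hb, hS, hsS⟩ := exists_normalise A s hs
  have hSne := pA_evJ_ne_zero A J hJ S hS
  have hRne := pA_evJ_ne_zero A J hJ R hR
  have hSi := iA_ne_zero_of_pA_ne_zero A hSne
  have hmem : iA A (evJ A J R) / iA A (evJ A J S) ∈ gRing A :=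
    (mem_gRing_iff A).mpr ⟨evJ A J R, evJ A J S, hSne, by field_simp⟩
  have hres : gRes A ⟨_, hmem⟩ = pA A (evJ A J R) / pA A (evJ A J S) :=
    gRes_eq A _ hSne (by
      show iA A (evJ A J S) * (iA A (evJ A J R) / iA A (evJ A J S)) = _
      field_simp)
  have hCb : (HahnSeries.C b : LaurentSeries K) ≠ 0 := by
    rw [Ne, map_eq_zero]; exact hb
  have hc2 : (c : LaurentSeries K) =
      HahnSeries.C (a / b) * (iA A (evJ A J R) / iA A (evJ A J S)) := by
    rw [hrs, hrR, hsS, map_mul, map_mul, aeval_C, aeval_C, algebraMap_eq_C, algebraMap_eq_C,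
      ← iA_evJ, ← iA_evJ, map_div₀]
    field_simp
  have hab : a / b ∈ A := by
    refine (C_mul_unit_mem_iff A (a / b) ⟨_, hmem⟩ ?_).mp (hc2 ▸ c.2)
    rw [hres]; exact div_ne_zero hRne hSne
  refine ⟨C ⟨a / b, hab⟩ * R, S, hS, ?_⟩
  have h3 : iA A (evJ A J (C ⟨a / b, hab⟩ * R)) = HahnSeries.C (a / b) * iA A (evJ A J R) := by
    rw [map_mul, map_mul]
    congr 1
    rw [evJ, coe_eval₂RingHom, eval₂_C, iA, HahnSeries.C_apply, HahnSeries.C_apply,
      coeffMap_single]
    rfl
  rw [h3, hc2]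
  field_simp

theorem iA_evJ_mem (Q : (↥A)[X]) : iA A (evJ A J Q) ∈ IntermediateField.adjoin K {iA A J} := by
  rw [iA_evJ]; exact aeval_mem_simple _ _

theorem pA_evJ_mem (Q : (↥A)[X]) : pA A (evJ A J Q) ∈
    IntermediateField.adjoin (IsLocalRing.ResidueField ↥A)
      {pA A J} := by
  rw [pA_evJ]; exact aeval_mem_simple _ _

variable (FK : IntermediateField K (LaurentSeries K))
  (Fk : IntermediateField (IsLocalRing.ResidueField ↥A)
    (LaurentSeries (IsLocalRing.ResidueField ↥A)))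

variable {A J FK Fk} in
theorem GHyp.leK {n : ℕ} (H : GHyp A J FK Fk n) : IntermediateField.adjoin K {iA A J} ≤ FK := by
  rw [IntermediateField.adjoin_simple_le_iff]
  exact H.memK

variable {A J FK Fk} in
theorem GHyp.lek {n : ℕ} (H : GHyp A J FK Fk n) :
    IntermediateField.adjoin (IsLocalRing.ResidueField ↥A) {pA A J} ≤ Fk := by
  rw [IntermediateField.adjoin_simple_le_iff]
  exact H.memk

/-- `y` is a quotient of honest integral series of the level `M` field, the denominator being a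
primitive polynomial in `j`. -/
def IsFrac (y : LaurentSeries K) : Prop :=
  ∃ (w : LaurentSeries ↥A) (S : (↥A)[X]), S.map (IsLocalRing.residue ↥A) ≠ 0 ∧
    iA A w ∈ FK ∧
    pA A w ∈ Fk ∧
    iA A (evJ A J S) * y = iA A w

variable {A J FK Fk} {n : ℕ}

theorem IsFrac.add (H : GHyp A J FK Fk n) {y y' : LaurentSeries K} (h : IsFrac A J FK Fk y)
    (h' : IsFrac A J FK Fk y') :
    IsFrac A J FK Fk (y + y') := by
  obtain ⟨w, S, hS, hw, hwr, e⟩ := h
  obtain ⟨w', S', hS', hw', hwr', e'⟩ := h'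
  refine ⟨w * evJ A J S' + w' * evJ A J S, S * S', ?_, ?_, ?_, ?_⟩
  · rw [Polynomial.map_mul]; exact mul_ne_zero hS hS'
  · rw [map_add, map_mul, map_mul]
    exact add_mem (mul_mem hw (H.leK (iA_evJ_mem A J S')))
      (mul_mem hw' (H.leK (iA_evJ_mem A J S)))
  · rw [map_add, map_mul, map_mul]
    exact add_mem (mul_mem hwr (H.lek (pA_evJ_mem A J S')))
      (mul_mem hwr' (H.lek (pA_evJ_mem A J S)))
  · rw [map_mul, map_mul, map_add, map_mul, map_mul, ← e, ← e']; ring

theorem IsFrac.zero : IsFrac A J FK Fk (0 : LaurentSeries K) :=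
  ⟨0, 1, by simp, by simp, by simp, by simp⟩

theorem GBasis.isFrac (H : GHyp A J FK Fk n) {z : Fin n → LaurentSeries ↥A}
    (hz : GBasis A J FK Fk n z)
    (y : ↥(gRing A)) (hy : (y : LaurentSeries K) ∈ FK) :
    IsFrac A J FK Fk (y : LaurentSeries K) := by
  classical
  obtain ⟨c, hcE, hyc⟩ := hz.span_int y hy
  rw [hyc]
  refine Finset.sum_induction _ (IsFrac A J FK Fk) (fun _ _ => IsFrac.add H) IsFrac.zero ?_
  intro i _
  obtain ⟨R, S, hS, e⟩ := rat_frac A J H.trans (c i) (hcE i)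
  refine ⟨evJ A J R * z i, S, hS, ?_, ?_, ?_⟩
  · rw [map_mul]; exact mul_mem (H.leK (iA_evJ_mem A J R)) (hz.mem i)
  · rw [map_mul]; exact mul_mem (H.lek (pA_evJ_mem A J R)) (hz.mem_res i)
  · rw [map_mul, ← e]; ring

theorem IsFrac.gRes_eq (hJ : Transcendental (IsLocalRing.ResidueField ↥A) (pA A J))
    {y : ↥(gRing A)} {w : LaurentSeries ↥A} {S : (↥A)[X]}
    (hS : S.map (IsLocalRing.residue ↥A) ≠ 0)
    (e : iA A (evJ A J S) * (y : LaurentSeries K) = iA A w) :
    gRes A y = pA A w / pA A (evJ A J S) :=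
  Fermat.Agent.GAL.Gauss.gRes_eq A y (pA_evJ_ne_zero A J hJ S hS) e

/-- (T2) the residue of a Gauss integral element of the level `M` field over `K` lies in the
level `M` field over `k`. -/
theorem gRes_mem (H : GHyp A J FK Fk n) (y : ↥(gRing A))
    (hy : (y : LaurentSeries K) ∈ FK) :
    gRes A y ∈ Fk := by
  obtain ⟨z, hz⟩ := H.exists_gBasis
  obtain ⟨w, S, hS, -, hwr, e⟩ := hz.isFrac H y hy
  rw [IsFrac.gRes_eq H.trans hS e]
  exact div_mem hwr (H.lek (pA_evJ_mem A J S))

/-- (T1) every nonzero element of the level `M` field is a constant times a Gauss unit. -/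
theorem normalise (H : GHyp A J FK Fk n) (x : LaurentSeries K)
    (hx : x ∈ FK) (hx0 : x ≠ 0) :
    ∃ (a : K) (u : ↥(gRing A)), a ≠ 0 ∧ (u : LaurentSeries K) ∈ FK ∧
      x = HahnSeries.C a * (u : LaurentSeries K) ∧ gRes A u ≠ 0 := by
  classical
  obtain ⟨z, hz⟩ := H.exists_gBasis
  obtain ⟨d, hdE, hxd⟩ := hz.span x hx
  have hd0 : d ≠ 0 := by
    rintro rfl
    apply hx0
    rw [hxd]; simp
  obtain ⟨i₀, h0, hdiv⟩ := Fermat.Agent.S28.D1a_pivot (gRing A)
    (IntermediateField.adjoin K {iA A J}).toSubfield (fun c hc => rat_val A J H.trans c hc) d hdE hd0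
  let c : Fin n → ↥(gRing A) := fun i => ⟨d i / d i₀, hdiv i⟩
  have hcE : ∀ i, (c i : LaurentSeries K) ∈ IntermediateField.adjoin K {iA A J} :=
    fun i => div_mem (hdE i) (hdE i₀)
  let u₀ : ↥(gRing A) := ∑ i, c i * ⟨iA A (z i), iA_mem_gRing A _⟩
  have hu₀ : (u₀ : LaurentSeries K) = ∑ i, d i / d i₀ * iA A (z i) := by
    simp only [u₀, c, AddSubmonoidClass.coe_finsetSum, MulMemClass.coe_mul]
  have hu₀x : (u₀ : LaurentSeries K) = x / d i₀ := by
    rw [hu₀, hxd, Finset.sum_div]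
    exact Finset.sum_congr rfl fun i _ => by ring
  have hres : gRes A u₀ ≠ 0 := by
    intro h
    have h1 : ∑ i, gRes A (c i) * pA A (z i) = 0 := by
      rw [← h]
      simp only [u₀, map_sum, map_mul, gRes_iA]
    have h2 := hz.indep_res (fun i => gRes A (c i)) (fun i => rat_res A J H.trans (c i) (hcE i)) h1
    have h3 : gRes A (c i₀) = 0 := congrFun h2 i₀
    have h4 : c i₀ = 1 := Subtype.ext (div_self h0)
    rw [h4, map_one] at h3
    exact one_ne_zero h3
  obtain ⟨a, u', ha, hdu, hu', -⟩ := rat_normalise A J H.trans (d i₀) (hdE i₀) h0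
  have hu'E : (u' : LaurentSeries K) ∈ IntermediateField.adjoin K {iA A J} := by
    have hCa : (HahnSeries.C a : LaurentSeries K) ≠ 0 := by rw [Ne, map_eq_zero]; exact ha
    have : (u' : LaurentSeries K) = (HahnSeries.C a)⁻¹ * d i₀ := by
      rw [hdu, ← mul_assoc, inv_mul_cancel₀ hCa, one_mul]
    rw [this, ← algebraMap_eq_C]
    exact mul_mem (inv_mem (IntermediateField.algebraMap_mem _ _)) (hdE i₀)
  refine ⟨a, u' * u₀, ha, ?_, ?_, ?_⟩
  · rw [MulMemClass.coe_mul, hu₀x]
    exact mul_mem (H.leK hu'E) (div_mem hx (H.leK (hdE i₀)))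
  · rw [MulMemClass.coe_mul, hu₀x, ← mul_assoc, ← hdu, mul_div_cancel₀ _ h0]
  · rw [map_mul]; exact mul_ne_zero hu' hres

/-- (NORMALISE) every nonzero element of the level `M` field is `c * P / Q` with `c` a nonzero
constant and `P`, `Q` honest `A`-integral series of the field with nonzero reduction. -/
theorem normalise_frac (H : GHyp A J FK Fk n) (x : LaurentSeries K)
    (hx : x ∈ FK) (hx0 : x ≠ 0) :
    ∃ (c : K) (P Q : LaurentSeries ↥A), c ≠ 0 ∧
      iA A P ∈ FK ∧ iA A Q ∈ FK ∧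
      pA A P ≠ 0 ∧ pA A Q ≠ 0 ∧
      pA A P ∈ Fk ∧
      pA A Q ∈ Fk ∧
      iA A Q * x = HahnSeries.C c * iA A P := by
  obtain ⟨a, u, ha, huF, hxu, hu⟩ := normalise H x hx hx0
  obtain ⟨z, hz⟩ := H.exists_gBasis
  obtain ⟨w, S, hS, hw, hwr, e⟩ := hz.isFrac H u huF
  have hSne := pA_evJ_ne_zero A J H.trans S hS
  refine ⟨a, w, evJ A J S, ha, hw, H.leK (iA_evJ_mem A J S), ?_, hSne, hwr,
    H.lek (pA_evJ_mem A J S), ?_⟩
  · intro h
    apply hu
    rw [IsFrac.gRes_eq H.trans hS e, h, zero_div]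
  · rw [hxu, ← e]; ring

/-- (T3) the Gauss valuation ring of the level `M` field. -/
def OF (H : GHyp A J FK Fk n) :
    ValuationSubring ↥(FK) where
  toSubring := (gRing A).comap (algebraMap ↥(FK) (LaurentSeries K))
  mem_or_inv_mem' x := by
    by_cases hx0 : x = 0
    · subst hx0
      exact Or.inl (Subring.zero_mem _)
    have hx0' : (x : LaurentSeries K) ≠ 0 := fun h => hx0 (Subtype.ext h)
    obtain ⟨a, u, ha, -, hxu, hu⟩ := normalise H x x.2 hx0'
    rcases A.mem_or_inv_mem a with h | h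
    · left
      show (x : LaurentSeries K) ∈ gRing A
      rw [hxu]
      exact (C_mul_unit_mem_iff A a u hu).mpr h
    · right
      show algebraMap ↥(FK) (LaurentSeries K) x⁻¹ ∈ gRing A
      rw [map_inv₀]
      show (x : LaurentSeries K)⁻¹ ∈ gRing A
      rw [hxu, mul_inv, ← map_inv₀]
      exact (gRing A).mul_mem ((C_mem_gRing_iff A _).mpr h)
        (inv_mem_gRing_of_gRes_ne_zero A u hu)

theorem mem_OF_iff (H : GHyp A J FK Fk n)
    (x : ↥(FK)) :
    x ∈ OF H ↔ (x : LaurentSeries K) ∈ gRing A := Iff.rfl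

/-- the residue map of `OF`, with values in the level `M` field over the residue field. -/
def resOF (H : GHyp A J FK Fk n) :
    ↥(OF H) →+* ↥(Fk) :=
  ((gRes A).comp
    (((algebraMap ↥(FK) (LaurentSeries K)).comp
      (OF H).subtype).codRestrict (gRing A) (fun x => x.2))).codRestrict
    (Fk).toSubring
    (fun x => gRes_mem H _ x.1.2)

theorem coe_resOF (H : GHyp A J FK Fk n) (x : ↥(OF H)) :
    ((resOF H x : ↥(Fk)) :
      LaurentSeries (IsLocalRing.ResidueField ↥A)) =
      gRes A ⟨((x : ↥(FK)) : LaurentSeries K), x.2⟩ := rfl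

/-- lifting elements of `k(j)`. -/
theorem rat_lift (hJ : Transcendental (IsLocalRing.ResidueField ↥A) (pA A J)) (d : LaurentSeries (IsLocalRing.ResidueField ↥A))
    (hd : d ∈ IntermediateField.adjoin (IsLocalRing.ResidueField ↥A)
      {pA A J}) :
    ∃ c : ↥(gRing A), (c : LaurentSeries K) ∈ IntermediateField.adjoin K {iA A J} ∧
      gRes A c = d := by
  obtain ⟨r, s, hrs⟩ := (IntermediateField.mem_adjoin_simple_iff _ _).mp hd
  by_cases hs : s = 0
  · subst hs
    rw [map_zero, div_zero] at hrs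
    exact ⟨0, zero_mem _, by rw [map_zero, hrs]⟩
  obtain ⟨R, rfl⟩ := Polynomial.map_surjective _ IsLocalRing.residue_surjective r
  obtain ⟨S, rfl⟩ := Polynomial.map_surjective _ IsLocalRing.residue_surjective s
  have hSne := pA_evJ_ne_zero A J hJ S hs
  have hSi := iA_ne_zero_of_pA_ne_zero A hSne
  have hmem : iA A (evJ A J R) / iA A (evJ A J S) ∈ gRing A :=
    (mem_gRing_iff A).mpr ⟨evJ A J R, evJ A J S, hSne, by field_simp⟩
  refine ⟨⟨_, hmem⟩, div_mem (iA_evJ_mem A J R) (iA_evJ_mem A J S), ?_⟩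
  rw [gRes_eq A _ hSne (z := evJ A J R) (by
      show iA A (evJ A J S) * (iA A (evJ A J R) / iA A (evJ A J S)) = _
      field_simp), pA_evJ, pA_evJ, hrs]

/-- (T4) the residue map is onto the level `M` field over the residue field. -/
theorem gRes_surjective (H : GHyp A J FK Fk n)
    (x : LaurentSeries (IsLocalRing.ResidueField ↥A))
    (hx : x ∈ Fk) :
    ∃ y : ↥(gRing A), (y : LaurentSeries K) ∈ FK ∧ gRes A y = x := by
  classical
  obtain ⟨z, hz⟩ := H.exists_gBasis
  obtain ⟨d, hdE, hxd⟩ := hz.span_res x hx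
  choose c hcE hcd using fun i => rat_lift H.trans (d i) (hdE i)
  refine ⟨∑ i, c i * ⟨iA A (z i), iA_mem_gRing A _⟩, ?_, ?_⟩
  · simp only [AddSubmonoidClass.coe_finsetSum, MulMemClass.coe_mul]
    exact sum_mem fun i _ => mul_mem (H.leK (hcE i)) (hz.mem i)
  · simp only [map_sum, map_mul, gRes_iA, hcd]
    exact hxd.symm

theorem resOF_surjective (H : GHyp A J FK Fk n) :
    Function.Surjective (resOF H) := by
  intro x
  obtain ⟨y, hyF, hy⟩ := gRes_surjective H x x.2
  exact ⟨⟨⟨y, hyF⟩, y.2⟩, Subtype.ext hy⟩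

theorem resOF_eq_zero_iff (H : GHyp A J FK Fk n)
    (x : ↥(OF H)) : resOF H x = 0 ↔ x ∈ IsLocalRing.maximalIdeal ↥(OF H) := by
  rw [IsLocalRing.mem_maximalIdeal, mem_nonunits_iff]
  constructor
  · intro h hu
    have := hu.map (resOF H)
    rw [h] at this
    exact not_isUnit_zero this
  · intro h
    by_contra hne
    apply h
    have hne' : gRes A ⟨((x : ↥(FK)) : LaurentSeries K), x.2⟩ ≠ 0 := by
      intro h0
      exact hne (Subtype.ext h0)
    have hinv := inv_mem_gRing_of_gRes_ne_zero A _ hne'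
    have hx0 : (x : ↥(FK)) ≠ 0 := by
      intro h0
      apply hne
      have : x = 0 := Subtype.ext h0
      rw [this, map_zero]
    have hmem : (x : ↥(FK))⁻¹ ∈ OF H := by
      rw [mem_OF_iff]
      simpa using hinv
    exact IsUnit.of_mul_eq_one ⟨_, hmem⟩ (Subtype.ext (mul_inv_cancel₀ hx0))

end Fermat.Agent.S48.Igusa1
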