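import Fermat.Agent.GAL.Gauss.Main

/-!
# S48 / IGUSA1 (b), file `GRat`: the Gauss valuation on `K(J)`, `J` an `A`-integral series with
transcendental reduction.  (Port of `GAL/Gauss/RatJ.lean`, where `J = j`.)
-/

set_option autoImplicit false

noncomputable section

namespace Fermat.Agent.S48.Igusa1

open ModularCurve Polynomial Fermat.Agent.GAL.Gauss

variable {K : Type} [Field K] (A : ValuationSubring K) (J : LaurentSeries ↥A)

theorem aeval_mem_simple {k L : Type*} [Field k] [Field L] [Algebra k L] (x : L) (P : k[X]) :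
    aeval x P ∈ IntermediateField.adjoin k {x} := by
  rw [IntermediateField.mem_adjoin_simple_iff]
  exact ⟨P, 1, by simp⟩

/-- evaluation at `j` of polynomials over `A`. -/
def evJ : (↥A)[X] →+* LaurentSeries ↥A := eval₂RingHom HahnSeries.C J

theorem iA_evJ (Q : (↥A)[X]) : iA A (evJ A J Q) = aeval (iA A J) (Q.map A.subtype) := by
  have h1 := Polynomial.hom_eval₂ Q (HahnSeries.C : ↥A →+* LaurentSeries ↥A) (iA A) (J)
  have h2 : (iA A).comp (HahnSeries.C : ↥A →+* LaurentSeries ↥A) =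
      (algebraMap K (LaurentSeries K)).comp A.subtype := by
    ext1 r
    simp only [RingHom.comp_apply]
    rw [algebraMap_laurentSeries_eq_single, iA, HahnSeries.C_apply, coeffMap_single]
  rw [h2] at h1
  rw [aeval_def, eval₂_map]
  exact h1

theorem pA_evJ (Q : (↥A)[X]) :
    pA A (evJ A J Q) = aeval (pA A J) (Q.map (IsLocalRing.residue ↥A)) := by
  have h1 := Polynomial.hom_eval₂ Q (HahnSeries.C : ↥A →+* LaurentSeries ↥A) (pA A) (J)
  have h2 : (pA A).comp (HahnSeries.C : ↥A →+* LaurentSeries ↥A) =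
      (algebraMap (IsLocalRing.ResidueField ↥A) (LaurentSeries (IsLocalRing.ResidueField ↥A))).comp (IsLocalRing.residue ↥A) := by
    ext1 r
    simp only [RingHom.comp_apply]
    rw [algebraMap_laurentSeries_eq_single, pA, HahnSeries.C_apply, coeffMap_single]
  rw [h2] at h1
  rw [aeval_def, eval₂_map]
  exact h1

theorem pA_evJ_ne_zero (hJ : Transcendental (IsLocalRing.ResidueField ↥A) (pA A J)) (Q : (↥A)[X]) (hQ : Q.map (IsLocalRing.residue ↥A) ≠ 0) :
    pA A (evJ A J Q) ≠ 0 := by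
  rw [pA_evJ]
  intro h
  exact hQ ((transcendental_iff.mp
    hJ) _ h)

/-- every nonzero element of `K(j)` is a constant times a Gauss unit whose residue is in `k(j)`. -/
theorem rat_normalise (hJ : Transcendental (IsLocalRing.ResidueField ↥A) (pA A J)) (c : LaurentSeries K) (hc : c ∈ IntermediateField.adjoin K {iA A J})
    (h0 : c ≠ 0) :
    ∃ (a : K) (u : ↥(gRing A)), a ≠ 0 ∧ c = HahnSeries.C a * (u : LaurentSeries K) ∧
      gRes A u ≠ 0 ∧ gRes A u ∈ IntermediateField.adjoin (IsLocalRing.ResidueField ↥A) {pA A J} := by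
  obtain ⟨r, s, hrs⟩ := (IntermediateField.mem_adjoin_simple_iff K _).mp hc
  have hr : r ≠ 0 := by
    rintro rfl
    rw [map_zero, zero_div] at hrs
    exact h0 hrs
  have hs : s ≠ 0 := by
    rintro rfl
    rw [map_zero, div_zero] at hrs
    exact h0 hrs
  obtain ⟨a, R, ha, hR, hrR⟩ := exists_normalise A r hr
  obtain ⟨b, S, hb, hS, hsS⟩ := exists_normalise A s hs
  have hSne := pA_evJ_ne_zero A J hJ S hS
  have hRne := pA_evJ_ne_zero A J hJ R hR
  have hSi := iA_ne_zero_of_pA_ne_zero A hSne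
  have hmem : iA A (evJ A J R) / iA A (evJ A J S) ∈ gRing A :=
    (mem_gRing_iff A).mpr ⟨evJ A J R, evJ A J S, hSne, by field_simp⟩
  have hres : gRes A ⟨_, hmem⟩ = pA A (evJ A J R) / pA A (evJ A J S) :=
    gRes_eq A _ hSne (by
      show iA A (evJ A J S) * (iA A (evJ A J R) / iA A (evJ A J S)) = _
      field_simp)
  refine ⟨a / b, ⟨_, hmem⟩, div_ne_zero ha hb, ?_, ?_, ?_⟩
  · have hCb : (HahnSeries.C b : LaurentSeries K) ≠ 0 := by
      rw [Ne, map_eq_zero]; exact hb
    rw [hrs, hrR, hsS, map_mul, map_mul, aeval_C, aeval_C, algebraMap_eq_C, algebraMap_eq_C,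
      ← iA_evJ, ← iA_evJ, map_div₀]
    field_simp
  · rw [hres]; exact div_ne_zero hRne hSne
  · rw [hres, pA_evJ, pA_evJ]
    exact div_mem (aeval_mem_simple _ _) (aeval_mem_simple _ _)

theorem rat_val (hJ : Transcendental (IsLocalRing.ResidueField ↥A) (pA A J)) (c : LaurentSeries K) (hc : c ∈ IntermediateField.adjoin K {iA A J}) :
    c ∈ gRing A ∨ c⁻¹ ∈ gRing A := by
  by_cases h0 : c = 0
  · subst h0; exact Or.inl (zero_mem _)
  obtain ⟨a, u, ha, rfl, hu, -⟩ := rat_normalise A J hJ c hc h0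
  rcases A.mem_or_inv_mem a with h | h
  · exact Or.inl ((C_mul_unit_mem_iff A a u hu).mpr h)
  · right
    rw [mul_inv, ← map_inv₀]
    exact (gRing A).mul_mem ((C_mem_gRing_iff A _).mpr h) (inv_mem_gRing_of_gRes_ne_zero A u hu)

theorem rat_res (hJ : Transcendental (IsLocalRing.ResidueField ↥A) (pA A J)) (c : ↥(gRing A))
    (hc : (c : LaurentSeries K) ∈ IntermediateField.adjoin K {iA A J}) :
    gRes A c ∈ IntermediateField.adjoin (IsLocalRing.ResidueField ↥A) {pA A J} := by
  by_cases h0 : (c : LaurentSeries K) = 0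
  · have : c = 0 := Subtype.ext h0
    rw [this, map_zero]; exact zero_mem _
  obtain ⟨a, u, ha, hcu, hu, hmem⟩ := rat_normalise A J hJ c hc h0
  have haA : a ∈ A := (C_mul_unit_mem_iff A a u hu).mp (hcu ▸ c.2)
  have hC : HahnSeries.C a ∈ gRing A := (C_mem_gRing_iff A a).mpr haA
  have : c = ⟨_, hC⟩ * u := Subtype.ext hcu
  rw [this, map_mul, gRes_C A ⟨a, haA⟩ hC, ← algebraMap_eq_C]
  exact mul_mem (IntermediateField.algebraMap_mem _ _) hmem

/-- a polynomial in `j` which is Gauss integral has coefficients in `A`. -/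
theorem coeff_mem_of_aeval_mem' (hJ : Transcendental (IsLocalRing.ResidueField ↥A) (pA A J)) (P : K[X]) (h : aeval (iA A J) P ∈ gRing A) (i : ℕ) :
    P.coeff i ∈ A := by
  by_cases hP : P = 0
  · subst hP; simp [A.zero_mem]
  obtain ⟨a, R, ha, hR, hPR⟩ := exists_normalise A P hP
  have hRne := pA_evJ_ne_zero A J hJ R hR
  have hu : gRes A ⟨_, iA_mem_gRing A (evJ A J R)⟩ ≠ 0 := by rw [gRes_iA]; exact hRne
  have haA : a ∈ A := by
    refine (C_mul_unit_mem_iff A a ⟨_, iA_mem_gRing A (evJ A J R)⟩ hu).mp ?_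
    show HahnSeries.C a * iA A (evJ A J R) ∈ gRing A
    rw [iA_evJ, ← algebraMap_eq_C, ← aeval_C (iA A J) a, ← map_mul, ← hPR]
    exact h
  rw [hPR, coeff_C_mul, coeff_map]
  exact A.mul_mem _ _ haA (Subtype.mem _)

end Fermat.Agent.S48.Igusa1
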