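import Fermat.Agent.S48.Igusa1.GMain
import Fermat.Agent.GAL.RED.Modular
import Fermat.Agent.S48.Full.F1Defs

/-!
# S48 / IGUSA1 (b)+(d), file `GRed`: the Gauss reduction datum of `FK`, it is Cartesian; INJ.
(Abstract version of `GAL/RED/Concrete.lean`, `GAL/RED/Modular.lean`.)
-/

set_option autoImplicit false

namespace Fermat.Agent.S48.Igusa1

open AlgebraicCurve ModularCurve Fermat.Agent.Lib.RR Fermat.Agent.GAL.Gauss Fermat.Agent.GAL.RED

variable {K : Type} [Field K] {A : ValuationSubring K} {J : LaurentSeries ↥A}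
  {FK : IntermediateField K (LaurentSeries K)}
  {Fk : IntermediateField (IsLocalRing.ResidueField ↥A)
    (LaurentSeries (IsLocalRing.ResidueField ↥A))} {n : ℕ}

set_option synthInstance.maxHeartbeats 400000 in
/-- shortcut instance (the search is slow for `k = IsLocalRing.ResidueField A`). -/
noncomputable instance instAlgebraResidueF (A : ValuationSubring K)
    (Fk : IntermediateField (IsLocalRing.ResidueField ↥A)
      (LaurentSeries (IsLocalRing.ResidueField ↥A))) :
    Algebra (IsLocalRing.ResidueField ↥A) ↥Fk := inferInstance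

theorem coe_algebraMap_F {K₀ : Type} [Field K₀] (F : IntermediateField K₀ (LaurentSeries K₀))
    (a : K₀) : ((algebraMap K₀ ↥F a : ↥F) : LaurentSeries K₀) = HahnSeries.C a := by
  rw [IntermediateField.coe_algebraMap_apply, algebraMap_eq_C]

theorem algebraMap_mem_OF (H : GHyp A J FK Fk n) (a : K)
    (ha : a ∈ A) : algebraMap K ↥(FK) a ∈ OF H := by
  rw [mem_OF_iff, coe_algebraMap_F]
  exact (C_mem_gRing_iff A a).mpr ha

theorem resOF_algebraMap (H : GHyp A J FK Fk n) (a : K)
    (ha : a ∈ A) :
    resOF H ⟨algebraMap K ↥(FK) a, algebraMap_mem_OF H a ha⟩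
      = algebraMap (IsLocalRing.ResidueField ↥A)
          ↥(Fk)
          (IsLocalRing.residue ↥A ⟨a, ha⟩) := by
  apply Subtype.ext
  rw [coe_resOF]
  refine Eq.trans ?_ (coe_algebraMap_F _ _).symm
  rw [← gRes_C A ⟨a, ha⟩ ((C_mem_gRing_iff A a).mpr ha)]
  congr 1
  apply Subtype.ext
  exact coe_algebraMap_F FK a

/-- The Gauss reduction datum of level `M`. -/
noncomputable def gRedData (H : GHyp A J FK Fk n) :
    RedData K ↥(FK) (IsLocalRing.ResidueField ↥A)
      ↥(Fk) where
  A := A
  O := OF H
  resA := IsLocalRing.residue ↥A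
  res := resOF H
  resA_surjective := IsLocalRing.residue_surjective
  res_surjective := resOF_surjective H
  algebraMap_mem := algebraMap_mem_OF H
  res_algebraMap := resOF_algebraMap H

/-- An element of the field whose `q`-expansion has coefficients in `A` is integral, and its
reduction is the coefficientwise reduction. -/
theorem mem_gRedData_O (H : GHyp A J FK Fk n)
    (x : ↥(FK)) (z : LaurentSeries ↥A)
    (hz : (x : LaurentSeries K) = iA A z) : x ∈ (gRedData H).O := by
  show (x : LaurentSeries K) ∈ gRing A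
  rw [hz]; exact iA_mem_gRing A z

theorem coe_gRedData_red (H : GHyp A J FK Fk n)
    (x : ↥(FK)) (z : LaurentSeries ↥A)
    (hz : (x : LaurentSeries K) = iA A z) :
    (((gRedData H).red x : ↥(Fk)) :
      LaurentSeries (IsLocalRing.ResidueField ↥A)) = pA A z := by
  rw [(gRedData H).red_of_mem (mem_gRedData_O H x z hz)]
  have hx : x ∈ OF H := mem_gRedData_O H x z hz
  show ((resOF H ⟨x, hx⟩ : ↥(Fk)) :
      LaurentSeries (IsLocalRing.ResidueField ↥A)) = _
  rw [coe_resOF]
  exact gRes_of_eq_iA A _ z hz

theorem coe_aeval_F {K₀ : Type} [Field K₀] (F : IntermediateField K₀ (LaurentSeries K₀)) (x : ↥F)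
    (p : Polynomial K₀) :
    ((Polynomial.aeval x p : ↥F) : LaurentSeries K₀) = Polynomial.aeval (x : LaurentSeries K₀) p :=
  (Polynomial.aeval_algHom_apply F.val x p).symm

/-- (I3)(a) for the modular function fields.  Apply `isCartesian_of_basis` with `x = j` and
`b i = iA (z i)` for a `GaussBasis` (`exists_gaussBasis`): `hspan` from `GaussBasis.span` (elements
of `K(j)` are quotients of polynomials in `j`: `IntermediateField.mem_adjoin_simple_iff`, clear
denominators), `hind` from `GaussBasis.indep_res`. -/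
theorem gRedData_isCartesian (H : GHyp A J FK Fk n) :
    (gRedData H).IsCartesian := by
  classical
  obtain ⟨z, hz⟩ := H.exists_gBasis
  have hn0 := H.pos
  set R := gRedData H with hR
  let x : ↥(FK) := ⟨iA A J, H.memK⟩
  let b : Fin n → ↥(FK) := fun i => ⟨iA A (z i), hz.mem i⟩
  have hxz : (x : LaurentSeries K) = iA A J := rfl
  have hx : x ∈ R.O := mem_gRedData_O H x _ hxz
  have hb : ∀ i, b i ∈ R.O := fun i => mem_gRedData_O H (b i) (z i) rfl
  have hredx : ((R.red x : ↥(Fk)) :
      LaurentSeries (IsLocalRing.ResidueField ↥A)) = pA A J := by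
    rw [hR, coe_gRedData_red H x _ hxz]
  have hredb : ∀ i, ((R.red (b i) : ↥(Fk)) :
      LaurentSeries (IsLocalRing.ResidueField ↥A)) = pA A (z i) := fun i => by
    rw [hR, coe_gRedData_red H (b i) (z i) rfl]
  refine isCartesian_of_basis R hn0 x b hx hb ?_ ?_
  · intro f
    obtain ⟨d, hd, hf⟩ := hz.span f f.2
    have key : ∀ i, ∃ r s : Polynomial K, s ≠ 0 ∧
        Polynomial.aeval (iA A J) s * d i = Polynomial.aeval (iA A J) r := by
      intro i
      obtain ⟨r, s, hrs⟩ := (IntermediateField.mem_adjoin_simple_iff K _).mp (hd i)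
      by_cases hs : Polynomial.aeval (iA A J) s = 0
      · refine ⟨0, 1, one_ne_zero, ?_⟩
        rw [hrs, hs, div_zero]; simp
      · refine ⟨r, s, fun h => hs (by rw [h, map_zero]), ?_⟩
        rw [hrs]; field_simp
    choose r s hs hrs using key
    refine ⟨∏ i, s i, fun i => r i * ∏ j ∈ Finset.univ.erase i, s j,
      Finset.prod_ne_zero_iff.mpr fun i _ => hs i, ?_⟩
    apply Subtype.ext
    push_cast
    simp only [coe_aeval_F]
    show Polynomial.aeval (iA A J) (∏ i, s i) * (f : LaurentSeries K) =
      ∑ i, Polynomial.aeval (iA A J) (r i * ∏ j ∈ Finset.univ.erase i, s j) * iA A (z i)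
    rw [hf, Finset.mul_sum]
    refine Finset.sum_congr rfl fun i _ => ?_
    rw [← Finset.mul_prod_erase Finset.univ s (Finset.mem_univ i), map_mul, map_mul, ← hrs i]
    ring
  · intro p hp
    have h1 := congrArg (Subtype.val) hp
    have h2 : ∑ i, Polynomial.aeval (pA A J) (p i) * pA A (z i) = 0 := by
      have h3 : ((∑ i, Polynomial.aeval (R.red x) (p i) * R.red (b i) :
          ↥(Fk)) :
          LaurentSeries (IsLocalRing.ResidueField ↥A)) = 0 := h1
      push_cast at h3
      simp only [coe_aeval_F, hredx, hredb] at h3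
      exact h3
    have h4 := hz.indep_res (fun i => Polynomial.aeval (pA A J) (p i))
      (fun i => aeval_mem_simple _ _) h2
    funext i
    exact (transcendental_iff.mp H.trans) _ (congrFun h4 i)

/-- **INJ** for `FK`, from the equality of the genera. -/
theorem GHyp.injAt (H : GHyp A J FK Fk n) [IsAlgClosed K] [IsAlgClosed (IsLocalRing.ResidueField ↥A)]
    [IsFF K ↥FK] [IsFF (IsLocalRing.ResidueField ↥A) ↥Fk]
    (hg : genusFF K ↥FK = genusFF (IsLocalRing.ResidueField ↥A) ↥Fk) :
    Fermat.Agent.S48.Full.InjAt A FK := by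
  intro m hm P Q p q hP hQ hq hpq hdiv
  refine inj_div (gRedData H) (gRedData_isCartesian H) hg m hm P Q ?_ ?_ hdiv
  · intro h
    apply hq
    rw [← coe_gRedData_red H Q q hQ, h]
    rfl
  · apply Subtype.ext
    rw [coe_gRedData_red H P p hP, coe_gRedData_red H Q q hQ, hpq]

end Fermat.Agent.S48.Igusa1
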